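/-
Project S52 (the 3-5 switch), node [SS], helper17.  Prefix `s52s_`.
TWO WEIERSTRASS CURVES WITH THE SAME `(c₄, c₆)` over a field of characteristic `≠ 2, 3` differ by a
change of variables with `u = 1` (`s52s_iso`); hence an integral curve `W'` whose `(c₄, c₆)` are
those of a curve `E` over `ℚ` is an integral model of `E` (`s52s_isIntegralModelOf`).
Mathlib + `Fermat.Prelude.Def_FLTPrelim_Modularity`.
-/
import Mathlib
import Fermat.Prelude.Def_FLTPrelim_Modularity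

set_option autoImplicit false
namespace Fermat.Agent.S52
open WeierstrassCurve

/-- two Weierstrass curves over a field of characteristic `≠ 2, 3` with the same `c₄`, `c₆` differ
by a change of variables with `u = 1`. -/
theorem s52s_iso {F : Type*} [Field F] (h2 : (2 : F) ≠ 0) (h3 : (3 : F) ≠ 0)
    (W₁ W₂ : WeierstrassCurve F) (h4 : W₁.c₄ = W₂.c₄) (h6 : W₁.c₆ = W₂.c₆) :
    ∃ C : VariableChange F, C.u = 1 ∧ C • W₁ = W₂ := by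
  obtain ⟨s, hs2⟩ : ∃ s : F, 2 * s = W₂.a₁ - W₁.a₁ :=
    ⟨(W₂.a₁ - W₁.a₁) / 2, by field_simp⟩
  obtain ⟨r, hr3⟩ : ∃ r : F, 3 * r = W₂.a₂ - W₁.a₂ + s * W₁.a₁ + s ^ 2 :=
    ⟨(W₂.a₂ - W₁.a₂ + s * W₁.a₁ + s ^ 2) / 3, by field_simp⟩
  obtain ⟨t, ht2⟩ : ∃ t : F, 2 * t = W₂.a₃ - W₁.a₃ - r * W₁.a₁ :=
    ⟨(W₂.a₃ - W₁.a₃ - r * W₁.a₁) / 2, by field_simp⟩
  refine ⟨⟨1, r, s, t⟩, rfl, ?_⟩
  have e1 : (⟨1, r, s, t⟩ : VariableChange F) • W₁ =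
      ⟨W₁.a₁ + 2 * s, W₁.a₂ - s * W₁.a₁ + 3 * r - s ^ 2, W₁.a₃ + r * W₁.a₁ + 2 * t,
        W₁.a₄ - s * W₁.a₃ + 2 * r * W₁.a₂ - (t + r * s) * W₁.a₁ + 3 * r ^ 2 - 2 * s * t,
        W₁.a₆ + r * W₁.a₄ + r ^ 2 * W₁.a₂ + r ^ 3 - t * W₁.a₃ - t ^ 2 - r * t * W₁.a₁⟩ := by
    ext <;> simp [variableChange_a₁, variableChange_a₂, variableChange_a₃, variableChange_a₄,
      variableChange_a₆]
  have h48 : (48 : F) ≠ 0 := by
    have : (48 : F) = 2 ^ 4 * 3 := by norm_num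
    rw [this]
    exact mul_ne_zero (pow_ne_zero _ h2) h3
  have h864 : (864 : F) ≠ 0 := by
    have : (864 : F) = 2 ^ 5 * 3 ^ 3 := by norm_num
    rw [this]
    exact mul_ne_zero (pow_ne_zero _ h2) (pow_ne_zero _ h3)
  rw [e1]
  have ha1 : W₁.a₁ + 2 * s = W₂.a₁ := by rw [hs2]; ring
  have ha2 : W₁.a₂ - s * W₁.a₁ + 3 * r - s ^ 2 = W₂.a₂ := by rw [hr3]; ring
  have ha3 : W₁.a₃ + r * W₁.a₁ + 2 * t = W₂.a₃ := by rw [ht2]; ring
  have ha4 : W₁.a₄ - s * W₁.a₃ + 2 * r * W₁.a₂ - (t + r * s) * W₁.a₁ + 3 * r ^ 2 - 2 * s * t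
      = W₂.a₄ := by
    have h4' := h4
    simp only [WeierstrassCurve.c₄, WeierstrassCurve.b₂, WeierstrassCurve.b₄] at h4'
    apply mul_left_cancel₀ h48
    have : W₂.a₁ = W₁.a₁ + 2 * s := ha1.symm
    have h2' : W₂.a₂ = W₁.a₂ - s * W₁.a₁ + 3 * r - s ^ 2 := ha2.symm
    have h3' : W₂.a₃ = W₁.a₃ + r * W₁.a₁ + 2 * t := ha3.symm
    rw [this, h2', h3'] at h4'
    linear_combination (-1 : F) * h4'
  have ha6 : W₁.a₆ + r * W₁.a₄ + r ^ 2 * W₁.a₂ + r ^ 3 - t * W₁.a₃ - t ^ 2 - r * t * W₁.a₁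
      = W₂.a₆ := by
    have h6' := h6
    simp only [WeierstrassCurve.c₆, WeierstrassCurve.b₂, WeierstrassCurve.b₄,
      WeierstrassCurve.b₆] at h6'
    apply mul_left_cancel₀ h864
    have h1' : W₂.a₁ = W₁.a₁ + 2 * s := ha1.symm
    have h2' : W₂.a₂ = W₁.a₂ - s * W₁.a₁ + 3 * r - s ^ 2 := ha2.symm
    have h3' : W₂.a₃ = W₁.a₃ + r * W₁.a₁ + 2 * t := ha3.symm
    have h4'' : W₂.a₄ = W₁.a₄ - s * W₁.a₃ + 2 * r * W₁.a₂ - (t + r * s) * W₁.a₁ + 3 * r ^ 2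
        - 2 * s * t := ha4.symm
    rw [h1', h2', h3', h4''] at h6'
    linear_combination (-1 : F) * h6'
  ext
  · exact ha1
  · exact ha2
  · exact ha3
  · exact ha4
  · exact ha6

/-- an integral curve with the `(c₄, c₆)` of `E` is an integral model of `E`. -/
theorem s52s_isIntegralModelOf (W' : WeierstrassCurve ℤ) (E : WeierstrassCurve ℚ)
    (h4 : E.c₄ = (W'.c₄ : ℚ)) (h6 : E.c₆ = (W'.c₆ : ℚ)) : W'.IsIntegralModelOf E := by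
  obtain ⟨C, -, hC⟩ := s52s_iso (F := ℚ) (by norm_num) (by norm_num) E
    (W'.map (Int.castRingHom ℚ))
    (by rw [WeierstrassCurve.map_c₄, h4]; rfl) (by rw [WeierstrassCurve.map_c₆, h6]; rfl)
  exact ⟨C, hC⟩

end Fermat.Agent.S52
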