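/-
Project S52 (the 3-5 switch), node [SS] (step (6) of lead ruling #33), helper17.  Prefix `s52s_`.
THE GLOBAL INTEGRAL MODEL WITHOUT KRAUS, AND SEMISTABILITY BY CONGRUENCE.

* `s52s_model`      : a Weierstrass curve over `ℤ` with PRESCRIBED invariants `(c₄', c₆')`, as soon as
                      `1728 ∣ c₄(W) - c₄'` and `864 ∣ c₆(W) - c₆'` for some integral `W`
                      (same `a₁, a₂, a₃`, hence the same `b₂`; solve for `b₄, b₆`).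
* `s52s_disc_congr` : `c₄' ≡ c₄`, `c₆' ≡ c₆` modulo `1728 Δ M`  ⟹  `Δ' = Δ (1 + M e)`.
* `s52s_semistable` : then `W'` is semistable at the primes dividing `M`, has the same good primes
                      inside `M`, and `Δ' ≠ 0`; outside `M` semistability is the (resultant) hypothesis.
Mathlib + `Fermat.Prelude.Def_FLTPrelim_Modularity`.
-/
import Mathlib
import Fermat.Prelude.Def_FLTPrelim_Modularity

set_option autoImplicit false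

namespace Fermat.Agent.S52

open WeierstrassCurve

/-- **the integral model with prescribed `c₄, c₆`** -/
theorem s52s_model (W : WeierstrassCurve ℤ) (c4' c6' : ℤ) (h4 : (1728 : ℤ) ∣ W.c₄ - c4')
    (h6 : (864 : ℤ) ∣ W.c₆ - c6') :
    ∃ W' : WeierstrassCurve ℤ, W'.c₄ = c4' ∧ W'.c₆ = c6' ∧ W'.a₁ = W.a₁ ∧ W'.a₂ = W.a₂ ∧
      W'.a₃ = W.a₃ := by
  obtain ⟨u, hu⟩ := h4
  obtain ⟨v, hv⟩ := h6
  have e4 : c4' = W.c₄ - 1728 * u := by linarith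
  have e6 : c6' = W.c₆ - 864 * v := by linarith
  refine ⟨⟨W.a₁, W.a₂, W.a₃, W.a₄ + 36 * u, W.a₆ + (v + 3 * W.b₂ * u)⟩, ?_, ?_, rfl, rfl, rfl⟩
  · rw [e4]
    simp only [WeierstrassCurve.c₄, WeierstrassCurve.b₂, WeierstrassCurve.b₄]
    ring
  · rw [e6]
    simp only [WeierstrassCurve.c₆, WeierstrassCurve.b₂, WeierstrassCurve.b₄,
      WeierstrassCurve.b₆]
    ring

/-- congruent invariants modulo `1728 Δ M` give `Δ' = Δ (1 + M e)` -/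
theorem s52s_disc_congr (W W' : WeierstrassCurve ℤ) (M : ℤ)
    (h4 : 1728 * W.Δ * M ∣ W.c₄ - W'.c₄) (h6 : 1728 * W.Δ * M ∣ W.c₆ - W'.c₆) :
    ∃ e : ℤ, W'.Δ = W.Δ * (1 + M * e) := by
  obtain ⟨a, ha⟩ := h4
  obtain ⟨b, hb⟩ := h6
  have e4 : W'.c₄ = W.c₄ - 1728 * W.Δ * M * a := by linarith
  have e6 : W'.c₆ = W.c₆ - 1728 * W.Δ * M * b := by linarith
  have r := W.c_relation
  have r' := W'.c_relation
  rw [e4, e6] at r'
  refine ⟨-3 * W.c₄ ^ 2 * a + 3 * W.c₄ * (1728 * W.Δ * M) * a ^ 2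
      - (1728 * W.Δ * M) ^ 2 * a ^ 3 + 2 * W.c₆ * b - (1728 * W.Δ * M) * b ^ 2, ?_⟩
  have h : (1728 : ℤ) * W'.Δ = 1728 * (W.Δ * (1 + M * (-3 * W.c₄ ^ 2 * a
      + 3 * W.c₄ * (1728 * W.Δ * M) * a ^ 2 - (1728 * W.Δ * M) ^ 2 * a ^ 3 + 2 * W.c₆ * b
      - (1728 * W.Δ * M) * b ^ 2))) := by
    rw [r']
    linear_combination (-1 : ℤ) * r
  exact mul_left_cancel₀ (by norm_num : (1728 : ℤ) ≠ 0) h

/-- a prime dividing `M` does not divide `1 + M e` -/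
theorem s52s_not_dvd_one_add {ℓ : ℕ} (hℓ : ℓ.Prime) {M : ℤ} (hM : (ℓ : ℤ) ∣ M) (e : ℤ) :
    ¬ (ℓ : ℤ) ∣ 1 + M * e := by
  intro h
  have h1 : (ℓ : ℤ) ∣ 1 := by
    have h2 : (ℓ : ℤ) ∣ M * e := Dvd.dvd.mul_right hM e
    have := dvd_sub h h2
    rwa [add_sub_cancel_right] at this
  have h3 := Int.natAbs_dvd_natAbs.2 h1
  rw [Int.natAbs_natCast, Int.natAbs_one, Nat.dvd_one] at h3
  exact hℓ.one_lt.ne' h3

/-- **semistability by congruence** -/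
theorem s52s_semistable (W W' : WeierstrassCurve ℤ) (hW : W.IsSemistableModel) (hΔ : W.Δ ≠ 0)
    (M : ℤ) (h2 : (2 : ℤ) ∣ M) (h4 : 1728 * W.Δ * M ∣ W.c₄ - W'.c₄)
    (h6 : 1728 * W.Δ * M ∣ W.c₆ - W'.c₆)
    (hout : ∀ ℓ : ℕ, ℓ.Prime → ¬ (ℓ : ℤ) ∣ M → (ℓ : ℤ) ∣ W'.Δ → ¬ (ℓ : ℤ) ∣ W'.c₄) :
    W'.Δ ≠ 0 ∧ W'.IsSemistableModel ∧
      ∀ ℓ : ℕ, ℓ.Prime → (ℓ : ℤ) ∣ M → (W'.IsGoodPrimeFor ℓ ↔ W.IsGoodPrimeFor ℓ) := by
  obtain ⟨e, he⟩ := s52s_disc_congr W W' M h4 h6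
  have hiff : ∀ ℓ : ℕ, ℓ.Prime → (ℓ : ℤ) ∣ M → ((ℓ : ℤ) ∣ W'.Δ ↔ (ℓ : ℤ) ∣ W.Δ) := by
    intro ℓ hℓ hM
    rw [he]
    constructor
    · intro h
      rcases (Nat.prime_iff_prime_int.1 hℓ).dvd_or_dvd h with h1 | h1
      · exact h1
      · exact absurd h1 (s52s_not_dvd_one_add hℓ hM e)
    · intro h
      exact Dvd.dvd.mul_right h _
  refine ⟨?_, ?_, ?_⟩
  · rw [he]
    refine mul_ne_zero hΔ ?_
    intro h0
    have h1 : ¬ ((2 : ℕ) : ℤ) ∣ 1 + M * e := s52s_not_dvd_one_add Nat.prime_two (by exact_mod_cast h2) e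
    rw [h0] at h1
    exact h1 (dvd_zero _)
  · intro ℓ hℓ hd
    by_cases hM : (ℓ : ℤ) ∣ M
    · have h1 : ¬ (ℓ : ℤ) ∣ W.c₄ := hW ℓ hℓ ((hiff ℓ hℓ hM).1 hd)
      intro h5
      apply h1
      have h7 : (ℓ : ℤ) ∣ W.c₄ - W'.c₄ :=
        dvd_trans (Dvd.dvd.mul_left hM _) h4
      have := dvd_add h7 h5
      rwa [sub_add_cancel] at this
    · exact hout ℓ hℓ hM hd
  · intro ℓ hℓ hM
    unfold WeierstrassCurve.IsGoodPrimeFor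
    rw [hiff ℓ hℓ hM]

end Fermat.Agent.S52
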