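/-
Project S52 (the 3-5 switch), node [SS] (step (6) of lead ruling #33), helper17.  Prefix `s52s_`.
SPECIALISATION OF POLYNOMIALS WITH `T`-DENOMINATORS AT `c = M ^ k * t`, AND THE BEZOUT FORM OF THE
RESULTANT STEP.

* `s52s_clear`  : `G ∈ ℚ[X]` with denominators dividing powers of `M` ⟹ `M ^ J * G(y) ∈ ℤ` for all
                  integers `y`;
* `s52s_spec`   : `F ∈ ℚ[X]` such, `D ∣ M ^ j` ⟹ `∃ k, ∀ t, F(M ^ k t) = F(0) + D z`, `z ∈ ℤ`;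
* `s52s_bezout` : `U C + V Δ = 1` in `ℚ[X]`, `U, V` with `M`-power denominators, `C(c), Δ(c) ∈ ℤ`
                  ⟹ no prime `ℓ ∤ M` divides both `C(c)` and `Δ(c)` (`c ∈ ℤ`).
Mathlib only.
-/
import Mathlib

set_option autoImplicit false

namespace Fermat.Agent.S52

open Polynomial

/-- `q * M ^ j ∈ ℤ` if the denominator of `q` divides `M ^ j` -/
theorem s52s_mul_pow_int {q : ℚ} {M : ℤ} {j : ℕ} (h : (q.den : ℤ) ∣ M ^ j) :
    ∃ n : ℤ, q * (M : ℚ) ^ j = n := by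
  obtain ⟨w, hw⟩ := h
  refine ⟨q.num * w, ?_⟩
  have h1 : (M : ℚ) ^ j = (q.den : ℚ) * w := by exact_mod_cast hw
  rw [h1, ← mul_assoc, Rat.mul_den_eq_num]
  push_cast
  ring

/-- the polynomials all of whose coefficients have a denominator dividing a power of `M` -/
def s52s_IsMInt (M : ℤ) (G : ℚ[X]) : Prop :=
  ∀ i : ℕ, ∃ j : ℕ, ((G.coeff i).den : ℤ) ∣ M ^ j

/-- clearing denominators of the values at integers -/
theorem s52s_clear (M : ℤ) (G : ℚ[X]) (hG : s52s_IsMInt M G) :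
    ∃ J : ℕ, ∀ y : ℤ, ∃ n : ℤ, (M : ℚ) ^ J * G.eval (y : ℚ) = n := by
  -- choose the exponents
  choose j hj using hG
  refine ⟨∑ i ∈ G.support, j i, fun y => ?_⟩
  rw [Polynomial.eval_eq_sum, Polynomial.sum_def, Finset.mul_sum]
  -- each term is an integer
  have hterm : ∀ i ∈ G.support, ∃ n : ℤ,
      (M : ℚ) ^ (∑ i ∈ G.support, j i) * (G.coeff i * (y : ℚ) ^ i) = n := by
    intro i hi
    obtain ⟨n, hn⟩ := s52s_mul_pow_int (hj i)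
    have hle : j i ≤ ∑ i ∈ G.support, j i :=
      Finset.single_le_sum (f := j) (fun _ _ => Nat.zero_le _) hi
    obtain ⟨d, hd⟩ := Nat.exists_eq_add_of_le hle
    refine ⟨n * M ^ d * y ^ i, ?_⟩
    rw [hd, pow_add]
    push_cast
    rw [← hn]
    ring
  choose! n hn using hterm
  refine ⟨∑ i ∈ G.support, n i, ?_⟩
  push_cast
  exact Finset.sum_congr rfl fun i hi => hn i hi

/-- **specialisation at `c = M ^ k * t`** -/
theorem s52s_spec (F : ℚ[X]) (M D : ℤ) (hF : s52s_IsMInt M F) (hD : ∃ j : ℕ, D ∣ M ^ j) :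
    ∃ k : ℕ, ∀ t : ℤ, ∃ z : ℤ,
      F.eval (((M ^ k * t : ℤ)) : ℚ) = F.coeff 0 + (D : ℚ) * z := by
  obtain ⟨jD, w, hw⟩ := hD
  have hG : s52s_IsMInt M F.divX := fun i => by
    rw [Polynomial.coeff_divX]
    exact hF (i + 1)
  obtain ⟨J, hJ⟩ := s52s_clear M F.divX hG
  refine ⟨J + jD, fun t => ?_⟩
  obtain ⟨n, hn⟩ := hJ (M ^ (J + jD) * t)
  refine ⟨n * w * t, ?_⟩
  have h1 : F.eval (((M ^ (J + jD) * t : ℤ)) : ℚ) =
      F.divX.eval (((M ^ (J + jD) * t : ℤ)) : ℚ) * (((M ^ (J + jD) * t : ℤ)) : ℚ)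
        + F.coeff 0 := by
    conv_lhs => rw [← Polynomial.divX_mul_X_add F]
    rw [Polynomial.eval_add, Polynomial.eval_mul, Polynomial.eval_X, Polynomial.eval_C]
  have h2 : ((M : ℚ)) ^ jD = (D : ℚ) * w := by exact_mod_cast hw
  have h3 : (((M ^ (J + jD) * t : ℤ)) : ℚ) = (M : ℚ) ^ J * ((M : ℚ) ^ jD * t) := by
    push_cast
    ring
  rw [h1]
  generalize F.divX.eval (((M ^ (J + jD) * t : ℤ)) : ℚ) = g at hn ⊢
  rw [h3]
  push_cast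
  linear_combination ((M : ℚ) ^ jD * t) * hn + ((n : ℚ) * t) * h2

/-- the product of the denominators of the coefficients -/
def s52s_den (G : ℚ[X]) : ℤ := ∏ i ∈ G.support, ((G.coeff i).den : ℤ)

theorem s52s_den_ne_zero (G : ℚ[X]) : s52s_den G ≠ 0 := by
  rw [s52s_den, Finset.prod_ne_zero_iff]
  intro i _
  exact_mod_cast (G.coeff i).den_nz

theorem s52s_isMInt_of_dvd {G : ℚ[X]} {M : ℤ} (h : s52s_den G ∣ M) : s52s_IsMInt M G := by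
  intro i
  by_cases hi : i ∈ G.support
  · refine ⟨1, ?_⟩
    rw [pow_one]
    exact dvd_trans (Finset.dvd_prod_of_mem (fun i => ((G.coeff i).den : ℤ)) hi) h
  · rw [Polynomial.notMem_support_iff] at hi
    exact ⟨0, by rw [hi, Rat.den_zero, pow_zero, Nat.cast_one]⟩

/-- **the resultant step, Bezout form**: coprime `C, Δ ∈ ℚ[X]` have no common prime factor of
their (integral) values at integers, outside a finite set of primes. -/
theorem s52s_bezout {C Δ : ℚ[X]} (h : IsCoprime C Δ) :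
    ∃ M₀ : ℤ, M₀ ≠ 0 ∧ ∀ M : ℤ, M₀ ∣ M → ∀ c m₁ m₂ : ℤ, C.eval (c : ℚ) = m₁ →
      Δ.eval (c : ℚ) = m₂ → ∀ ℓ : ℕ, ℓ.Prime → ¬ (ℓ : ℤ) ∣ M → (ℓ : ℤ) ∣ m₂ → ¬ (ℓ : ℤ) ∣ m₁ := by
  obtain ⟨U, V, hUV⟩ := h
  refine ⟨s52s_den U * s52s_den V, mul_ne_zero (s52s_den_ne_zero U) (s52s_den_ne_zero V), ?_⟩
  intro M hM c m₁ m₂ h1 h2 ℓ hℓ hℓM hd2 hd1
  obtain ⟨J₁, hJ₁⟩ := s52s_clear M U (s52s_isMInt_of_dvd (dvd_trans (Dvd.intro _ rfl) hM))
  obtain ⟨J₂, hJ₂⟩ := s52s_clear M V (s52s_isMInt_of_dvd (dvd_trans (Dvd.intro_left _ rfl) hM))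
  obtain ⟨n₁, hn₁⟩ := hJ₁ c
  obtain ⟨n₂, hn₂⟩ := hJ₂ c
  have hev := congrArg (Polynomial.eval (c : ℚ)) hUV
  rw [Polynomial.eval_add, Polynomial.eval_mul, Polynomial.eval_mul, Polynomial.eval_one, h1,
    h2] at hev
  have hZ : M ^ J₂ * (n₁ * m₁) + M ^ J₁ * (n₂ * m₂) = M ^ (J₁ + J₂) := by
    have : ((M ^ J₂ * (n₁ * m₁) + M ^ J₁ * (n₂ * m₂) : ℤ) : ℚ) = ((M ^ (J₁ + J₂) : ℤ) : ℚ) := by
      push_cast
      rw [← hn₁, ← hn₂, pow_add]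
      linear_combination ((M : ℚ) ^ J₁ * (M : ℚ) ^ J₂) * hev
    exact_mod_cast this
  have hdvd : (ℓ : ℤ) ∣ M ^ (J₁ + J₂) := by
    rw [← hZ]
    exact dvd_add (Dvd.dvd.mul_left (Dvd.dvd.mul_left hd1 _) _)
      (Dvd.dvd.mul_left (Dvd.dvd.mul_left hd2 _) _)
  exact hℓM ((Nat.prime_iff_prime_int.1 hℓ).dvd_of_dvd_pow hdvd)

end Fermat.Agent.S52
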