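/-
Project S52 (the 3-5 switch), node [SS] (step (6) of lead ruling #33), helper17.  Prefix `s52s_`.
THE ASSEMBLY OF NODE [SS]: a family of invariants `C4(s), C6(s) ∈ ℚ[s]` with `C4(0) = c₄(W)`,
`C6(0) = c₆(W)`, `W` a semistable integral model with `Δ ≠ 0`, and `C4` coprime to
`C4 ^ 3 - C6 ^ 2 = 1728 Δ(s)`: there are `M ≠ 0` (divisible by any prescribed `M₁ ≠ 0`, by `2` and by
`Δ(W)`) and `k` such that for EVERY integer `t` the specialisation at `c = M ^ k t` has a SEMISTABLE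
INTEGRAL MODEL `W'` with `(c₄(W'), c₆(W')) = (C4(c), C6(c))` exactly, `Δ(W') ≠ 0`, and the same good
primes as `W` among the primes dividing `M`:

  `s52s_main`.
Mathlib + `S52/SS/Model` + `S52/SS/Spec`.
-/
import Mathlib
import Fermat.Agent.S52.SS.Model
import Fermat.Agent.S52.SS.Spec

set_option autoImplicit false

namespace Fermat.Agent.S52

open WeierstrassCurve Polynomial

/-- `C4` coprime to `C6`  ⟹  `C4` coprime to `C4 ^ 3 - C6 ^ 2`. -/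
theorem s52s_coprime_disc {C4 C6 : ℚ[X]} (h : IsCoprime C4 C6) :
    IsCoprime C4 (C4 ^ 3 - C6 ^ 2) := by
  have h1 : IsCoprime C4 (C6 ^ 2) := h.pow_right
  have h2 : IsCoprime C4 (-(C6 ^ 2)) := h1.neg_right
  have h3 : IsCoprime C4 (-(C6 ^ 2) + C4 ^ 2 * C4) := h2.add_mul_right_right (C4 ^ 2)
  have e : -(C6 ^ 2) + C4 ^ 2 * C4 = C4 ^ 3 - C6 ^ 2 := by ring
  rwa [e] at h3

/-- **NODE [SS]**: semistable integral models of the specialisations at `c = M ^ k t`. -/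
theorem s52s_main (W : WeierstrassCurve ℤ) (hW : W.IsSemistableModel) (hΔ : W.Δ ≠ 0)
    (C4 C6 : ℚ[X]) (h4 : C4.coeff 0 = (W.c₄ : ℚ)) (h6 : C6.coeff 0 = (W.c₆ : ℚ))
    (hcop : IsCoprime C4 (C4 ^ 3 - C6 ^ 2)) (M₁ : ℤ) (hM₁ : M₁ ≠ 0) :
    ∃ M : ℤ, M ≠ 0 ∧ M₁ ∣ M ∧ (2 : ℤ) ∣ M ∧ W.Δ ∣ M ∧ ∃ k : ℕ, ∀ t : ℤ,
      ∃ W' : WeierstrassCurve ℤ,
        (W'.c₄ : ℚ) = C4.eval (((M ^ k * t : ℤ)) : ℚ) ∧
        (W'.c₆ : ℚ) = C6.eval (((M ^ k * t : ℤ)) : ℚ) ∧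
        W'.Δ ≠ 0 ∧ W'.IsSemistableModel ∧
        ∀ ℓ : ℕ, ℓ.Prime → (ℓ : ℤ) ∣ M → (W'.IsGoodPrimeFor ℓ ↔ W.IsGoodPrimeFor ℓ) := by
  obtain ⟨M₀, hM₀, hbez⟩ := s52s_bezout hcop
  set M : ℤ := 6 * W.Δ * M₀ * s52s_den C4 * s52s_den C6 * M₁ with hM
  have hMne : M ≠ 0 := by
    rw [hM]
    exact mul_ne_zero (mul_ne_zero (mul_ne_zero (mul_ne_zero (mul_ne_zero (by norm_num) hΔ) hM₀)
      (s52s_den_ne_zero C4)) (s52s_den_ne_zero C6)) hM₁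
  have hd6 : (6 : ℤ) ∣ M := ⟨W.Δ * M₀ * s52s_den C4 * s52s_den C6 * M₁, by rw [hM]; ring⟩
  have hdΔ : W.Δ ∣ M := ⟨6 * M₀ * s52s_den C4 * s52s_den C6 * M₁, by rw [hM]; ring⟩
  have hd0 : M₀ ∣ M := ⟨6 * W.Δ * s52s_den C4 * s52s_den C6 * M₁, by rw [hM]; ring⟩
  have hd4 : s52s_den C4 ∣ M := ⟨6 * W.Δ * M₀ * s52s_den C6 * M₁, by rw [hM]; ring⟩
  have hd6' : s52s_den C6 ∣ M := ⟨6 * W.Δ * M₀ * s52s_den C4 * M₁, by rw [hM]; ring⟩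
  have hd1 : M₁ ∣ M := ⟨6 * W.Δ * M₀ * s52s_den C4 * s52s_den C6, by rw [hM]; ring⟩
  have hd2 : (2 : ℤ) ∣ M := dvd_trans (by norm_num) hd6
  -- the modulus
  set D : ℤ := 1728 * W.Δ * M with hD
  have hDM : ∃ j : ℕ, D ∣ M ^ j := by
    refine ⟨8, ?_⟩
    have h1 : (1728 : ℤ) ∣ M ^ 6 :=
      dvd_trans (⟨27, by norm_num⟩ : (1728 : ℤ) ∣ 6 ^ 6) (pow_dvd_pow_of_dvd hd6 6)
    have e : M ^ 8 = M ^ 6 * M * M := by ring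
    rw [hD, e]
    exact mul_dvd_mul (mul_dvd_mul h1 hdΔ) (dvd_refl M)
  obtain ⟨k₄, hk₄⟩ := s52s_spec C4 M D (s52s_isMInt_of_dvd hd4) hDM
  obtain ⟨k₆, hk₆⟩ := s52s_spec C6 M D (s52s_isMInt_of_dvd hd6') hDM
  refine ⟨M, hMne, hd1, hd2, hdΔ, k₄ + k₆, fun t => ?_⟩
  obtain ⟨z₄, hz₄⟩ := hk₄ (M ^ k₆ * t)
  obtain ⟨z₆, hz₆⟩ := hk₆ (M ^ k₄ * t)
  have e₄ : M ^ k₄ * (M ^ k₆ * t) = M ^ (k₄ + k₆) * t := by rw [pow_add]; ring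
  have e₆ : M ^ k₆ * (M ^ k₄ * t) = M ^ (k₄ + k₆) * t := by rw [pow_add]; ring
  rw [e₄, h4] at hz₄
  rw [e₆, h6] at hz₆
  -- the integral invariants
  set c4' : ℤ := W.c₄ + D * z₄ with hc4'
  set c6' : ℤ := W.c₆ + D * z₆ with hc6'
  have hc4q : C4.eval (((M ^ (k₄ + k₆) * t : ℤ)) : ℚ) = (c4' : ℚ) := by
    rw [hz₄, hc4']
    push_cast
    ring
  have hc6q : C6.eval (((M ^ (k₄ + k₆) * t : ℤ)) : ℚ) = (c6' : ℚ) := by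
    rw [hz₆, hc6']
    push_cast
    ring
  have hD4 : D ∣ W.c₄ - c4' := ⟨-z₄, by rw [hc4']; ring⟩
  have hD6 : D ∣ W.c₆ - c6' := ⟨-z₆, by rw [hc6']; ring⟩
  have h1728 : (1728 : ℤ) ∣ D := ⟨W.Δ * M, by rw [hD]; ring⟩
  obtain ⟨W', hW'4, hW'6, -, -, -⟩ := s52s_model W c4' c6' (dvd_trans h1728 hD4)
    (dvd_trans (dvd_trans (by norm_num) h1728) hD6)
  have hout : ∀ ℓ : ℕ, ℓ.Prime → ¬ (ℓ : ℤ) ∣ M → (ℓ : ℤ) ∣ W'.Δ → ¬ (ℓ : ℤ) ∣ W'.c₄ := by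
    intro ℓ hℓ hℓM hℓΔ
    have hrel : (W'.c₄ ^ 3 - W'.c₆ ^ 2 : ℤ) = 1728 * W'.Δ := (W'.c_relation).symm
    refine hbez M hd0 (M ^ (k₄ + k₆) * t) W'.c₄ (W'.c₄ ^ 3 - W'.c₆ ^ 2) ?_ ?_ ℓ hℓ hℓM ?_
    · rw [hc4q, hW'4]
    · rw [eval_sub, eval_pow, eval_pow, hc4q, hc6q, hW'4, hW'6]
      push_cast
      ring
    · rw [hrel]
      exact Dvd.dvd.mul_left hℓΔ _
  obtain ⟨hΔ', hss', hgood⟩ := s52s_semistable W W' hW hΔ M hd2 (by rw [hW'4]; exact hD4)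
    (by rw [hW'6]; exact hD6) hout
  exact ⟨W', by rw [hW'4, hc4q], by rw [hW'6, hc6q], hΔ', hss', hgood⟩

end Fermat.Agent.S52
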