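/-
Project S52 (the 3-5 switch), node [SS] glue (helper17).  Prefix `s52s_`.
`s52_Family_stmt` (`S52/Seams.lean`) FROM ITS FUNCTION-FIELD HALF `s52s_FamilyFF_stmt`:
the arithmetic (semistable integral models of the specialisations at `s = M t`) is `s52s_main`.

`s52s_FamilyFF_stmt`: for `W` semistable with `Δ ≠ 0` and `E[5]` irreducible there are
`C4, C6 ∈ ℚ[s]` with
 (N) `C4(0) = c₄(W)`, `C6(0) = c₆(W)`;
 (C) `C4` prime to `C4³ - C6²`;
 (R) `s52_Rootless` of the `X₀(3)`-quartic (over `ℚ(s)`, Seams v2);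
 (S) a finite `S ⊂ ℚ` such that for `c ∉ S` EVERY integral `W'` with `Δ(W') ≠ 0` and
     `(c₄, c₆)(W') = (C4(c), C6(c))` has `E'[5] ≅ E[5]` as Galois modules.
-/
import Mathlib
import Fermat.Agent.S52.Seams
import Fermat.Agent.S52.SS.Main

set_option autoImplicit false

namespace Fermat.Agent.S52

open WeierstrassCurve Polynomial

/-- the function-field half of [FAMILY]. -/
def s52s_FamilyFF_stmt : Prop :=
  ∀ (W : WeierstrassCurve ℤ), W.Δ ≠ 0 → W.IsSemistableModel → W.ModRepIsIrreducible 5 →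
    ∃ (C4 C6 : Polynomial ℚ), C4.coeff 0 = (W.c₄ : ℚ) ∧ C6.coeff 0 = (W.c₆ : ℚ) ∧
      IsCoprime C4 (C4 ^ 3 - C6 ^ 2) ∧
      s52_Rootless (s52_quartic C4 C6) ∧
      ∃ S : Finset ℚ, ∀ c : ℚ, c ∉ S → ∀ W' : WeierstrassCurve ℤ, W'.Δ ≠ 0 →
        (W'.c₄ : ℚ) = C4.eval c → (W'.c₆ : ℚ) = C6.eval c →
        s52_TorsIso (W.map (Int.castRingHom ℚ)) (W'.map (Int.castRingHom ℚ)) 5

/-- **[FAMILY] from its function-field half.** -/
theorem s52s_family (h : s52s_FamilyFF_stmt) : s52_Family_stmt := by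
  intro W hΔ hW h5
  obtain ⟨C4, C6, h4, h6, hcop, hroot, S, hS⟩ := h W hΔ hW h5
  obtain ⟨M, hM0, -, -, -, k, hk⟩ := s52s_main W hW hΔ C4 C6 h4 h6 hcop 1 one_ne_zero
  have hMk : M ^ k ≠ 0 := pow_ne_zero k hM0
  have hMkq : ((M ^ k : ℤ) : ℚ) ≠ 0 := by exact_mod_cast hMk
  classical
  -- the exceptional parameters
  set T : Finset ℤ := S.image (fun c => ⌈c / ((M ^ k : ℤ) : ℚ)⌉) with hT
  refine ⟨C4, C6, M ^ k, T, hMk, hroot, fun t ht => ?_⟩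
  obtain ⟨W', h4', h6', hΔ', hss', -⟩ := hk t
  refine ⟨W', h4', h6', hΔ', hss', hS _ ?_ W' hΔ' h4' h6'⟩
  intro hmem
  apply ht
  rw [hT, Finset.mem_image]
  refine ⟨_, hmem, ?_⟩
  have : (((M ^ k * t : ℤ)) : ℚ) / ((M ^ k : ℤ) : ℚ) = (t : ℚ) := by
    rw [Int.cast_mul, mul_div_cancel_left₀ _ hMkq]
  rw [this, Int.ceil_intCast]

end Fermat.Agent.S52
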