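/-
Project S52 (the 3-5 switch), helper17.  Prefix `s52s_`.
THE ARITHMETIC TOP OF S52: everything after the function-field half, in one theorem.

INPUT (the function-field half): two polynomials `C4, C6 ∈ ℚ[s]` (the invariants of the twisted
universal family `EE'` over `ℚ(s)`, scaled to be polynomials) with
 (N) `C4(0) = c₄(W)`, `C6(0) = c₆(W)`;
 (C) `C4` prime to `C4³ - C6² = 1728 Δ(s)`                                        ([UNIV] + [NOS-5]);
 (R) the `3`-division quartic `X⁴ - 54 C4 X² - 216 C6 X - 243 C4²` has no root in `ℚ(s)`  ([IRR3]);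
 (S) for `c` outside a finite set, every integral `W'` with `(c₄, c₆) = (C4(c), C6(c))` has
     `a_ℓ(W') ≡ a_ℓ(W) mod 5` at the common good primes `ℓ ≠ 5`                     ([SPEC] + [AP]);
and `s52s_Hit_stmt` (= `s52h_hit`, node [HIT]).  OUTPUT: the frozen conclusion of S52.
Proof: `s52s_main` ([SS]: semistable integral models at `c = M^k t`), [HIT] for the family quartic in
`t` (substitution `s ↦ M^k s` on `ℚ(s)`), `s52i_irr3`.
-/
import Mathlib
import Fermat.Agent.S52.SS.Main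
import Fermat.Agent.S52.IRR3.Spec

set_option autoImplicit false

namespace Fermat.Agent.S52

open WeierstrassCurve Polynomial
open scoped Polynomial.Bivariate

/-- the target of node [HIT] (`s52h_hit` of `HIT/Seams.lean`, verbatim). -/
def s52s_Hit_stmt : Prop :=
  ∀ (g : ℚ[X][Y]), (∀ r : RatFunc ℚ, eval r (g.map (algebraMap ℚ[X] (RatFunc ℚ))) ≠ 0) →
    ∀ N : ℤ, ∃ t : ℤ, N ≤ t ∧ ∀ y : ℚ, evalEval (t : ℚ) y g ≠ 0

/-- the substitution `X ↦ m X` on `ℚ(X)`. -/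
noncomputable def s52s_scale (m : ℚ) (hm : m ≠ 0) : RatFunc ℚ →+* RatFunc ℚ :=
  RatFunc.liftRingHom ((algebraMap ℚ[X] (RatFunc ℚ)).comp (compRingHom (C m * X))) (by
    intro p hp
    rw [Submonoid.mem_comap, mem_nonZeroDivisors_iff_ne_zero]
    have hp0 : p ≠ 0 := mem_nonZeroDivisors_iff_ne_zero.1 hp
    intro h0
    apply hp0
    have h1 : p.comp (C m * X) = 0 := by
      have : algebraMap ℚ[X] (RatFunc ℚ) (p.comp (C m * X)) = 0 := h0
      exact (map_eq_zero_iff _ (RatFunc.algebraMap_injective ℚ)).1 this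
    have h2 : (p.comp (C m * X)).comp (C m⁻¹ * X) = p := by
      rw [comp_assoc]
      have : (C m * X : ℚ[X]).comp (C m⁻¹ * X) = X := by
        rw [mul_comp, C_comp, X_comp, ← mul_assoc, ← C_mul, mul_inv_cancel₀ hm, C_1, one_mul]
      rw [this, comp_X]
    rw [← h2, h1, zero_comp])

theorem s52s_scale_algebraMap (m : ℚ) (hm : m ≠ 0) (p : ℚ[X]) :
    s52s_scale m hm (algebraMap ℚ[X] (RatFunc ℚ) p) =
      algebraMap ℚ[X] (RatFunc ℚ) (p.comp (C m * X)) := by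
  rw [s52s_scale, RatFunc.liftRingHom_algebraMap]
  rfl

/-- the family quartic as a bivariate polynomial (inner variable = the parameter). -/
noncomputable def s52s_famQuartic (A4 A6 : ℚ[X]) : ℚ[X][Y] :=
  X ^ 4 - 54 * C A4 * X ^ 2 - 216 * C A6 * X - 243 * C A4 ^ 2

theorem s52s_famQuartic_evalEval (A4 A6 : ℚ[X]) (t y : ℚ) :
    evalEval t y (s52s_famQuartic A4 A6) = s52i_quartic (A4.eval t) (A6.eval t) y := by
  simp [s52s_famQuartic, evalEval, s52i_quartic]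

theorem s52s_famQuartic_eval_map (A4 A6 : ℚ[X]) (r : RatFunc ℚ) :
    eval r ((s52s_famQuartic A4 A6).map (algebraMap ℚ[X] (RatFunc ℚ))) =
      s52i_quartic (algebraMap ℚ[X] (RatFunc ℚ) A4) (algebraMap ℚ[X] (RatFunc ℚ) A6) r := by
  simp only [s52s_famQuartic, s52i_quartic, Polynomial.map_sub, Polynomial.map_mul,
    Polynomial.map_pow, map_X, map_C, eval_sub, eval_mul, eval_pow, eval_X, eval_C,
    Polynomial.map_ofNat, eval_ofNat]

theorem s52s_map_quartic {R S : Type*} [CommRing R] [CommRing S] (f : R →+* S) (a b x : R) :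
    f (s52i_quartic a b x) = s52i_quartic (f a) (f b) (f x) := by
  simp only [s52i_quartic, map_sub, map_mul, map_pow, map_ofNat]

/-- **THE ARITHMETIC TOP OF S52.**  A family of invariants `C4, C6 ∈ ℚ[s]` through `W` at `s = 0`,
with `C4` prime to the discriminant, whose `3`-division quartic has no root in `ℚ(s)`, and whose
specialisations outside a finite set have `a_ℓ ≡ a_ℓ(W) mod 5`: then (given [HIT]) the `3-5` switch
curve exists. -/
theorem s52s_top (hit : s52s_Hit_stmt) (W : WeierstrassCurve ℤ) (hΔ : W.Δ ≠ 0)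
    (hW : W.IsSemistableModel) (C4 C6 : ℚ[X]) (h4 : C4.coeff 0 = (W.c₄ : ℚ))
    (h6 : C6.coeff 0 = (W.c₆ : ℚ)) (hcop : IsCoprime C4 (C4 ^ 3 - C6 ^ 2))
    (hroot : ∀ r : RatFunc ℚ, s52i_quartic (algebraMap ℚ[X] (RatFunc ℚ) C4)
      (algebraMap ℚ[X] (RatFunc ℚ) C6) r ≠ 0)
    (S : Finset ℚ)
    (hspec : ∀ c : ℚ, c ∉ S → ∀ W' : WeierstrassCurve ℤ, W'.Δ ≠ 0 →
      (W'.c₄ : ℚ) = C4.eval c → (W'.c₆ : ℚ) = C6.eval c →
      ∀ ℓ : ℕ, ℓ.Prime → W.IsGoodPrimeFor ℓ → W'.IsGoodPrimeFor ℓ → ℓ ≠ 5 →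
        (5 : ℤ) ∣ (W'.apOfModel ℓ - W.apOfModel ℓ)) :
    ∃ W' : WeierstrassCurve ℤ, W'.Δ ≠ 0 ∧ W'.IsSemistableModel ∧ W'.ModRepIsIrreducible 3 ∧
      ∀ ℓ : ℕ, ℓ.Prime → W.IsGoodPrimeFor ℓ → W'.IsGoodPrimeFor ℓ → ℓ ≠ 5 →
        (5 : ℤ) ∣ (W'.apOfModel ℓ - W.apOfModel ℓ) := by
  obtain ⟨M, hM0, -, -, -, k, hk⟩ := s52s_main W hW hΔ C4 C6 h4 h6 hcop 1 one_ne_zero
  set m : ℚ := ((M ^ k : ℤ) : ℚ) with hm
  have hm0 : m ≠ 0 := by
    rw [hm]
    exact_mod_cast pow_ne_zero k hM0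
  have hcast : ∀ t : ℤ, (((M ^ k * t : ℤ)) : ℚ) = m * t := fun t => by
    rw [hm]
    push_cast
    ring
  set A4 : ℚ[X] := C4.comp (C m * X) with hA4
  set A6 : ℚ[X] := C6.comp (C m * X) with hA6
  have hback : ∀ p : ℚ[X], (p.comp (C m * X)).comp (C m⁻¹ * X) = p := by
    intro p
    rw [comp_assoc]
    have : (C m * X : ℚ[X]).comp (C m⁻¹ * X) = X := by
      rw [mul_comp, C_comp, X_comp, ← mul_assoc, ← C_mul, mul_inv_cancel₀ hm0, C_1, one_mul]
    rw [this, comp_X]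
  -- no root in `ℚ(X)`
  have hg : ∀ r : RatFunc ℚ,
      eval r ((s52s_famQuartic A4 A6).map (algebraMap ℚ[X] (RatFunc ℚ))) ≠ 0 := by
    intro r h0
    rw [s52s_famQuartic_eval_map] at h0
    have h1 := congrArg (s52s_scale m⁻¹ (inv_ne_zero hm0)) h0
    rw [s52s_map_quartic, s52s_scale_algebraMap, s52s_scale_algebraMap, map_zero, hA4, hA6,
      hback, hback] at h1
    exact hroot _ h1
  -- avoid the finite set
  set N : ℤ := 1 + ∑ c ∈ S, |⌈c / m⌉| with hN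
  obtain ⟨t, hNt, hty⟩ := hit (s52s_famQuartic A4 A6) hg N
  have htS : m * (t : ℚ) ∉ S := by
    intro hmem
    have h1 : ⌈m * (t : ℚ) / m⌉ = t := by
      rw [mul_div_cancel_left₀ _ hm0, Int.ceil_intCast]
    have h2 : |⌈m * (t : ℚ) / m⌉| ≤ ∑ c ∈ S, |⌈c / m⌉| :=
      Finset.single_le_sum (f := fun c => |⌈c / m⌉|) (fun c _ => abs_nonneg _) hmem
    rw [h1] at h2
    have h3 : t ≤ |t| := le_abs_self t
    omega
  obtain ⟨W', h4', h6', hΔ', hss', -⟩ := hk t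
  rw [hcast] at h4' h6'
  refine ⟨W', hΔ', hss', s52i_irr3 W' hΔ' (fun y => ?_), hspec (m * t) htS W' hΔ' h4' h6'⟩
  have h1 := hty y
  rw [s52s_famQuartic_evalEval, hA4, hA6, eval_comp, eval_comp, eval_mul, eval_C, eval_X] at h1
  rw [h4', h6']
  exact h1

end Fermat.Agent.S52
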