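/-
Project S52 (the 3-5 switch), helper17.  Prefix `s52s_`.
TRANSPORT OF `s52_TorsIso` (`S52/Seams.lean`):

* `s52s_torsIso_refl / _symm / _trans`;
* `s52s_torsIso_of_variableChange` : `C • E = E'` over `ℚ`, `Δ(E) ≠ 0`  ⟹  `E[n] ≅ E'[n]`
  (helper22's `lrvc_homQ`, `lrvc_mapQ_bijective`, `lrvc_mapQ_smul`);
* `s52s_torsIso_of_c4c6`           : equal `(c₄, c₆)` over `ℚ`  ⟹  `E[n] ≅ E'[n]`  (`s52s_iso`);
* `s52s_shortOf c4 c6`             : the short curve `y² = x³ - (c₄/48) x - c₆/864` with invariants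
                                     exactly `(c₄, c₆)`;
* `s52s_FamilyShort_stmt`, `s52s_familyFF_of_short` : in `s52s_FamilyFF_stmt` (`SS/Family.lean`) the
  clause (S) has to be proved for the short fibres `s52s_shortOf (C4 c) (C6 c)` only.
-/
import Mathlib
import Fermat.Agent.S52.Seams
import Fermat.Agent.S52.SS.Iso
import Fermat.Agent.S52.SS.Family
import Fermat.Agent.LR.NonEis.VarChange

set_option autoImplicit false

namespace Fermat.Agent.S52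

open WeierstrassCurve WeierstrassCurve.Affine WeierstrassCurve.Affine.Point Fermat.Agent.LR

theorem s52s_torsIso_refl (E : WeierstrassCurve.Affine ℚ) (n : ℕ) : s52_TorsIso E E n :=
  ⟨AddEquiv.refl _, fun _ _ => rfl⟩

theorem s52s_torsIso_symm {E E' : WeierstrassCurve.Affine ℚ} {n : ℕ} (h : s52_TorsIso E E' n) :
    s52_TorsIso E' E n := by
  obtain ⟨φ, hφ⟩ := h
  refine ⟨φ.symm, fun σ P => ?_⟩
  apply φ.injective
  rw [hφ, AddEquiv.apply_symm_apply, AddEquiv.apply_symm_apply]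

theorem s52s_torsIso_trans {E E' E'' : WeierstrassCurve.Affine ℚ} {n : ℕ}
    (h : s52_TorsIso E E' n) (h' : s52_TorsIso E' E'' n) : s52_TorsIso E E'' n := by
  obtain ⟨φ, hφ⟩ := h
  obtain ⟨ψ, hψ⟩ := h'
  refine ⟨φ.trans ψ, fun σ P => ?_⟩
  rw [AddEquiv.trans_apply, AddEquiv.trans_apply, hφ, hψ]

/-- a change of variables over `ℚ` induces a Galois-equivariant isomorphism on `n`-torsion. -/
theorem s52s_torsIso_of_variableChange (E E' : WeierstrassCurve ℚ) (C₀ : VariableChange ℚ)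
    (hC : C₀ • E = E') (hΔ : E.Δ ≠ 0) (n : ℕ) : s52_TorsIso E E' n := by
  set f := lrvc_homQ E E' C₀ hC hΔ with hf
  have hfinj : Function.Injective f := (lrvc_mapQ_bijective E E' C₀ hC hΔ).1
  have hfsurj : Function.Surjective f := (lrvc_mapQ_bijective E E' C₀ hC hΔ).2
  have hfσ : ∀ (σ : s52_G) (P : (E⁄s52_Qb).Point), f (σ • P) = σ • f P :=
    lrvc_mapQ_smul E E' C₀ hC hΔ
  have hmem : ∀ x : s52_Tors E n, f (x : (E⁄s52_Qb).Point) ∈
      Submodule.torsionBy ℤ (E'⁄s52_Qb).Point n := by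
    intro x
    have hx := x.2
    rw [Submodule.mem_torsionBy_iff] at hx ⊢
    rw [← map_zsmul, hx, _root_.map_zero]
  let g0 : s52_Tors E n →+ s52_Tors E' n :=
    { toFun := fun x => ⟨f x, hmem x⟩
      map_zero' := Subtype.ext (_root_.map_zero f)
      map_add' := fun x y => Subtype.ext
        (map_add f (x : (E⁄s52_Qb).Point) (y : (E⁄s52_Qb).Point)) }
  have hg : ∀ x, ((g0 x : s52_Tors E' n) : (E'⁄s52_Qb).Point) = f (x : (E⁄s52_Qb).Point) :=
    fun x => rfl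
  have hginj : Function.Injective g0 := by
    intro x y hxy
    apply Subtype.ext
    apply hfinj
    rw [← hg, ← hg, hxy]
  have hgsurj : Function.Surjective g0 := by
    intro y
    obtain ⟨P, hP⟩ := hfsurj (y : (E'⁄s52_Qb).Point)
    have hPmem : P ∈ Submodule.torsionBy ℤ (E⁄s52_Qb).Point n := by
      have hy := y.2
      rw [Submodule.mem_torsionBy_iff] at hy ⊢
      apply hfinj
      rw [map_zsmul, hP, hy, _root_.map_zero]
    exact ⟨⟨P, hPmem⟩, Subtype.ext hP⟩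
  refine ⟨AddEquiv.ofBijective g0 ⟨hginj, hgsurj⟩, fun σ x => ?_⟩
  apply Subtype.ext
  exact hfσ σ x

/-- equal `(c₄, c₆)` over `ℚ` ⟹ isomorphic `n`-torsion. -/
theorem s52s_torsIso_of_c4c6 (E E' : WeierstrassCurve ℚ) (hΔ : E.Δ ≠ 0) (h4 : E.c₄ = E'.c₄)
    (h6 : E.c₆ = E'.c₆) (n : ℕ) : s52_TorsIso E E' n := by
  obtain ⟨C, -, hC⟩ := s52s_iso (F := ℚ) (by norm_num) (by norm_num) E E' h4 h6
  exact s52s_torsIso_of_variableChange E E' C hC hΔ n

/-- the short curve with invariants exactly `(c₄, c₆)`. -/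
def s52s_shortOf (c4 c6 : ℚ) : WeierstrassCurve ℚ := ⟨0, 0, 0, -(c4 / 48), -(c6 / 864)⟩

theorem s52s_shortOf_c₄ (c4 c6 : ℚ) : (s52s_shortOf c4 c6).c₄ = c4 := by
  simp only [s52s_shortOf, WeierstrassCurve.c₄, WeierstrassCurve.b₂, WeierstrassCurve.b₄]
  ring

theorem s52s_shortOf_c₆ (c4 c6 : ℚ) : (s52s_shortOf c4 c6).c₆ = c6 := by
  simp only [s52s_shortOf, WeierstrassCurve.c₆, WeierstrassCurve.b₂, WeierstrassCurve.b₄,
    WeierstrassCurve.b₆]
  ring

theorem s52s_shortOf_Δ (c4 c6 : ℚ) : 1728 * (s52s_shortOf c4 c6).Δ = c4 ^ 3 - c6 ^ 2 := by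
  rw [(s52s_shortOf c4 c6).c_relation, s52s_shortOf_c₄, s52s_shortOf_c₆]

/-- [FAMILY], function-field half, with the clause (S) for the short fibres only. -/
def s52s_FamilyShort_stmt : Prop :=
  ∀ (W : WeierstrassCurve ℤ), W.Δ ≠ 0 → W.IsSemistableModel → W.ModRepIsIrreducible 5 →
    ∃ (C4 C6 : Polynomial ℚ), C4.coeff 0 = (W.c₄ : ℚ) ∧ C6.coeff 0 = (W.c₆ : ℚ) ∧
      IsCoprime C4 (C4 ^ 3 - C6 ^ 2) ∧
      s52_Rootless (s52_quartic C4 C6) ∧
      ∃ S : Finset ℚ, ∀ c : ℚ, c ∉ S → (C4.eval c) ^ 3 - (C6.eval c) ^ 2 ≠ 0 →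
        s52_TorsIso (W.map (Int.castRingHom ℚ)) (s52s_shortOf (C4.eval c) (C6.eval c)) 5

theorem s52s_familyFF_of_short (h : s52s_FamilyShort_stmt) : s52s_FamilyFF_stmt := by
  intro W hΔ hW h5
  obtain ⟨C4, C6, h4, h6, hcop, hroot, S, hS⟩ := h W hΔ hW h5
  refine ⟨C4, C6, h4, h6, hcop, hroot, S, fun c hc W' hΔ' h4' h6' => ?_⟩
  have hrel : (1728 : ℚ) * (W'.Δ : ℚ) = (W'.c₄ : ℚ) ^ 3 - (W'.c₆ : ℚ) ^ 2 := by
    have := W'.c_relation
    exact_mod_cast this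
  have hne : (C4.eval c) ^ 3 - (C6.eval c) ^ 2 ≠ 0 := by
    rw [← h4', ← h6', ← hrel]
    exact mul_ne_zero (by norm_num) (by exact_mod_cast hΔ')
  refine s52s_torsIso_trans (hS c hc hne) ?_
  have hΔs : (s52s_shortOf (C4.eval c) (C6.eval c)).Δ ≠ 0 := by
    intro h0
    have := s52s_shortOf_Δ (C4.eval c) (C6.eval c)
    rw [h0, mul_zero] at this
    exact hne this.symm
  refine s52s_torsIso_of_c4c6 _ _ hΔs ?_ ?_ 5
  · rw [s52s_shortOf_c₄, map_c₄, ← h4']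
    rfl
  · rw [s52s_shortOf_c₆, map_c₆, ← h6']
    rfl

end Fermat.Agent.S52
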